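import Fermat.Agent.S55.PT.SpecT

/-!
# S55 / layer D, leaf D-T2b (global dévissage), part A: generic lemmas   (helper123)

Generic setting: global group `G` with levels `L`, local groups `Gv v` with levels `Lv v`,
level-compatible maps `r v`, a character `χ` and a family `inv` satisfying reciprocity.

* `topGlobFun_push`, `topT3_push` : naturality of the global top map in the module;
* `topT3_surjective_of` : `Θ(N)` is surjective as soon as ONE local top pairing is;
* `charHomPull` and left exactness of `charHom χ −`.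
-/

set_option autoImplicit false
set_option linter.unusedSectionVars false

noncomputable section

namespace Fermat.Agent.S55.PT.H123

open groupCohomology Fermat.Agent.S55.PT

variable {k : Type} [Field k] {G : Type} [Group G]

/-! ### linear algebra -/

/-- Over a field, a linear map `φ` killing `ker u` factors through `u`. -/
lemma exists_factor {V W X : Type} [AddCommGroup V] [Module k V] [AddCommGroup W] [Module k W]
    [AddCommGroup X] [Module k X] (u : V →ₗ[k] W) (φ : V →ₗ[k] X)
    (h : ∀ v, u v = 0 → φ v = 0) : ∃ δ : W →ₗ[k] X, ∀ v, δ (u v) = φ v := by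
  have hle : LinearMap.ker u ≤ LinearMap.ker φ := fun v hv => h v hv
  obtain ⟨g, hg⟩ := ((LinearMap.ker u).liftQ u le_rfl).exists_leftInverse_of_injective
    (Submodule.ker_liftQ_eq_bot _ _ _ le_rfl)
  refine ⟨((LinearMap.ker u).liftQ φ hle) ∘ₗ g, fun v => ?_⟩
  have h1 : g (u v) = Submodule.Quotient.mk v := by
    have := LinearMap.congr_fun hg (Submodule.Quotient.mk v)
    simpa using this
  rw [LinearMap.comp_apply, h1]
  rfl

/-- `exists_factor` for maps between subspaces of dual spaces (stated separately because of the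
`AddCommMonoid`/`AddCommGroup` instance paths on such subspaces). -/
lemma exists_factor_sub {V V' : Type} [AddCommGroup V] [Module k V] [AddCommGroup V']
    [Module k V'] (W : Submodule k (Module.Dual k V)) (W' : Submodule k (Module.Dual k V'))
    (u : ↥W →ₗ[k] ↥W') (φ : Module.Dual k ↥W) (h : ∀ v, u v = 0 → φ v = 0) :
    ∃ δ : Module.Dual k ↥W', ∀ v, δ (u v) = φ v :=
  @exists_factor k _ ↥W ↥W' k _ _ _ _ _ _ u φ h

/-! ### pull-back of `χ`-equivariant functionals -/

section Pull

variable (χ : G →* kˣ) {N N' : Rep.{0, 0, 0} k G} (φ : N →ₗ[k] N') (hφ : IsEquivariant φ)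

/-- `f ↦ f ∘ φ` on `χ`-equivariant functionals -/
def charHomPull : ↥(charHom χ N') →ₗ[k] ↥(charHom χ N) where
  toFun f := ⟨(f : Module.Dual k N') ∘ₗ φ, fun g n => by
    have hφ' : ∀ (g : G) (a : N), φ (N.ρ g a) = N'.ρ g (φ a) := hφ
    rw [LinearMap.comp_apply, LinearMap.comp_apply, hφ' g n]
    exact f.2 g (φ n)⟩
  map_add' _ _ := rfl
  map_smul' _ _ := rfl

@[simp] lemma coe_charHomPull (f : ↥(charHom χ N')) :
    ((charHomPull χ φ hφ f : ↥(charHom χ N)) : Module.Dual k N) =
      (f : Module.Dual k N') ∘ₗ φ := rfl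

end Pull

/-- left exactness of `charHom χ −`: a `χ`-equivariant functional on `B` killing `i(A)` comes
from a `χ`-equivariant functional on `C`. -/
lemma ker_charHomPull_le {A B C : Rep.{0, 0, 0} k G} (χ : G →* kˣ) (E : SES A B C) :
    LinearMap.ker (charHomPull χ E.i E.hi) ≤ LinearMap.range (charHomPull χ E.π E.hπ) := by
  intro f hf
  have hf0 : ∀ a : A, (f : Module.Dual k B) (E.i a) = 0 := by
    intro a
    have := congrArg (fun x : ↥(charHom χ A) => (x : Module.Dual k A) a) (LinearMap.mem_ker.1 hf)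
    exact this
  have hker : LinearMap.ker E.π ≤ LinearMap.ker (f : Module.Dual k B) := by
    intro b hb
    rw [← E.exact] at hb
    obtain ⟨a, rfl⟩ := hb
    exact hf0 a
  -- `f' = f ∘ sec`
  have hfac : ∀ b : B, (f : Module.Dual k B) (E.sec (E.π b)) = (f : Module.Dual k B) b := by
    intro b
    have h1 : E.sec (E.π b) - b ∈ LinearMap.ker E.π := by
      rw [LinearMap.mem_ker, map_sub, E.π_sec, sub_self]
    have h2 := hker h1
    rw [LinearMap.mem_ker, map_sub, sub_eq_zero] at h2
    exact h2
  have hπ' : ∀ (g : G) (b : B), E.π (B.ρ g b) = C.ρ g (E.π b) := E.hπ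
  refine ⟨⟨(f : Module.Dual k B) ∘ₗ E.sec, fun g c => ?_⟩, ?_⟩
  · obtain ⟨b, rfl⟩ := E.surj c
    rw [LinearMap.comp_apply, LinearMap.comp_apply, ← hπ' g b, hfac, hfac]
    exact f.2 g b
  · apply Subtype.ext
    apply LinearMap.ext
    intro b
    exact hfac b

section Glob

variable {ι : Type} [Fintype ι] [DecidableEq ι] {Gv : ι → Type} [∀ v, Group (Gv v)]
variable {L : LevelSys G} {Lv : ∀ v, LevelSys (Gv v)} {r : ∀ v, Gv v →* G}
variable (hr : ∀ v, IsLevelCompatible (r v) L (Lv v))
variable {χ : G →* kˣ} {inv : ∀ v, (Lv v).H2 (ofChar (χ.comp (r v))) →ₗ[k] k}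

/-- naturality of `topGlobFun` in the module -/
lemma topGlobFun_push {N N' : Rep.{0, 0, 0} k G} (φ : N →ₗ[k] N') (hφ : IsEquivariant φ)
    (x : (v : ι) → (Lv v).H2 (Rep.res (r v) N)) (f : ↥(charHom χ N')) :
    topGlobFun χ inv N' (pushLoc2 φ hφ x) f = topGlobFun χ inv N x (charHomPull χ φ hφ f) := by
  rw [topGlobFun_apply, topGlobFun_apply]
  refine Finset.sum_congr rfl fun v _ => ?_
  congr 1
  rw [pushLoc2_apply]
  obtain ⟨c, hc⟩ := (Lv v).H2π_surjective _ (x v)
  rw [← hc]
  rfl

/-- `Θ(N)` is surjective as soon as one local top pairing is surjective. -/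
theorem topT3_surjective_of (hrec : IsRecip hr χ inv) (N : Rep.{0, 0, 0} k G) (v₀ : ι)
    (hloc : Function.Surjective
      (topPair (Lv v₀) (χ.comp (r v₀)) (inv v₀) (Rep.res (r v₀) N))) :
    Function.Surjective (topT3 hr N hrec) := by
  intro φ
  have hinj : Function.Injective (charHomRes χ N (r v₀)) := by
    intro f f' h
    apply Subtype.ext
    have := congrArg (fun x : ↥(charHom (χ.comp (r v₀)) (Rep.res (r v₀) N)) =>
      (x : Module.Dual k N)) h
    exact this
  obtain ⟨ψ, hψ⟩ := exists_factor_sub (charHom χ N) (charHom (χ.comp (r v₀)) (Rep.res (r v₀) N))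
    (charHomRes χ N (r v₀)) φ (fun f hf => by
      have : f = 0 := hinj (hf.trans (map_zero _).symm)
      rw [this, map_zero])
  obtain ⟨y, hy⟩ := hloc ψ
  refine ⟨T3π hr N (Pi.single v₀ y), ?_⟩
  rw [topT3_mk]
  apply LinearMap.ext
  intro f
  rw [topGlobFun_apply, Finset.sum_eq_single v₀]
  · rw [Pi.single_eq_same, ← topPair_apply, hy, hψ]
  · intro v _ hv
    rw [Pi.single_eq_of_ne hv, map_zero, map_zero]
  · intro h
    exact absurd (Finset.mem_univ v₀) h

end Glob

end Fermat.Agent.S55.PT.H123

end
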