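import Fermat.Agent.S55.PT.H123.TopGlobA

/-!
# S55 / layer D, leaf D-T2b (global dévissage), part C: induced modules   (helper123)

`Θ(Ind_U (twTriv χ W))` is injective for every finite-dimensional vector space `W`, given the
statement for `W = k` (input A7): coordinates `indMap U λ_i`, `indMap U ι_i` for a basis of `W`.
-/

set_option autoImplicit false
set_option linter.unusedSectionVars false

noncomputable section

namespace Fermat.Agent.S55.PT.H123

open groupCohomology Fermat.Agent.S55.PT

variable {k : Type} [Field k] {G : Type} [Group G]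

/-- every linear map is equivariant for the twisted trivial actions -/
lemma twTriv_equivariant (χ : G →* kˣ) {W W' : Type} [AddCommGroup W] [Module k W]
    [AddCommGroup W'] [Module k W'] (φ : W →ₗ[k] W') :
    IsEquivariant (A := twTriv χ W) (B := twTriv χ W') φ := by
  intro g a
  rw [twTriv_ρ_apply, twTriv_ρ_apply, map_smul]

/-- `Σ_i ψ_i ∘ φ_i = id` on coefficients gives `Σ_i (ψ_i)_* ∘ (φ_i)_* = id` on `H²`. -/
lemma pushH2_sum_comp {G' : Type} [Group G'] (L' : LevelSys G') {A B : Rep.{0, 0, 0} k G'}
    {κ : Type} [Fintype κ] (φ : κ → (A →ₗ[k] B)) (ψ : κ → (B →ₗ[k] A))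
    (hφ : ∀ i, IsEquivariant (φ i)) (hψ : ∀ i, IsEquivariant (ψ i))
    (hsum : ∀ a, ∑ i, ψ i (φ i a) = a) (x : L'.H2 A) :
    ∑ i, pushH2 (ψ i) (hψ i) L' (pushH2 (φ i) (hφ i) L' x) = x := by
  obtain ⟨c, rfl⟩ := L'.H2π_surjective A x
  simp only [pushH2_mk]
  rw [← map_sum]
  congr 1
  apply Subtype.ext
  funext g
  rw [Submodule.coe_sum, Finset.sum_apply]
  simp only [coe_pushZ2, Function.comp_apply]
  exact hsum _

section Coord

variable (U : Subgroup G) (χ : G →* kˣ) (W : Type) [AddCommGroup W] [Module k W]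
  [FiniteDimensional k W]

/-- the `i`-th coordinate `Ind_U (twTriv χ W) → Ind_U (ofChar χ)` -/
def coordMap (i : Fin (Module.finrank k W)) :
    ((G ⧸ U) →₀ (twTriv (G := G) χ W)) →ₗ[k] ((G ⧸ U) →₀ (ofChar χ : Rep.{0, 0, 0} k G)) :=
  indMap (M := twTriv χ W) (N := ofChar χ) U ((Module.finBasis k W).coord i)

/-- the `i`-th inclusion `Ind_U (ofChar χ) → Ind_U (twTriv χ W)` -/
def inclMap (i : Fin (Module.finrank k W)) :
    ((G ⧸ U) →₀ (ofChar χ : Rep.{0, 0, 0} k G)) →ₗ[k] ((G ⧸ U) →₀ (twTriv (G := G) χ W)) :=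
  indMap (M := ofChar χ) (N := twTriv χ W) U
    (LinearMap.toSpanSingleton k W (Module.finBasis k W i))

lemma coordMap_equivariant (i : Fin (Module.finrank k W)) :
    IsEquivariant (A := indRep U (twTriv χ W)) (B := indRep U (ofChar χ)) (coordMap U χ W i) :=
  indMap_equivariant (M := twTriv χ W) (N := ofChar χ) U _
    (twTriv_equivariant χ ((Module.finBasis k W).coord i))

lemma inclMap_equivariant (i : Fin (Module.finrank k W)) :
    IsEquivariant (A := indRep U (ofChar χ)) (B := indRep U (twTriv χ W)) (inclMap U χ W i) :=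
  indMap_equivariant (M := ofChar χ) (N := twTriv χ W) U _
    (twTriv_equivariant χ (LinearMap.toSpanSingleton k W (Module.finBasis k W i)))

lemma inclMap_coordMap_single (i : Fin (Module.finrank k W)) (x : G ⧸ U) (w : W) :
    inclMap U χ W i (coordMap U χ W i (Finsupp.single x w : (G ⧸ U) →₀ (twTriv (G := G) χ W))) =
      (Finsupp.single x (((Module.finBasis k W).coord i w) • (Module.finBasis k W i)) :
        (G ⧸ U) →₀ (twTriv (G := G) χ W)) := by
  unfold inclMap coordMap
  rw [indMap_single, indMap_single]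
  rfl

lemma sum_inclMap_coordMap (a : (G ⧸ U) →₀ (twTriv (G := G) χ W)) :
    ∑ i, inclMap U χ W i (coordMap U χ W i a) = a := by
  induction a using Finsupp.induction_linear with
  | zero =>
    refine Finset.sum_eq_zero fun i _ => ?_
    rw [(coordMap U χ W i).map_zero, (inclMap U χ W i).map_zero]
  | add f g hf hg =>
    have : ∀ i, inclMap U χ W i (coordMap U χ W i (f + g)) =
        inclMap U χ W i (coordMap U χ W i f) + inclMap U χ W i (coordMap U χ W i g) := by
      intro i
      rw [(coordMap U χ W i).map_add, (inclMap U χ W i).map_add]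
    rw [Finset.sum_congr rfl fun i _ => this i, Finset.sum_add_distrib, hf, hg]
  | single x w =>
    rw [Finset.sum_congr rfl fun i _ => inclMap_coordMap_single U χ W i x w]
    have h := (Module.finBasis k W).sum_repr w
    have h2 : (Finsupp.single x (∑ i, ((Module.finBasis k W).coord i w) • (Module.finBasis k W i)) :
        (G ⧸ U) →₀ W) = Finsupp.single x w := by
      congr 1
    rw [← h2, Finsupp.single_finset_sum]

end Coord

end Fermat.Agent.S55.PT.H123

end
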