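import Fermat.Agent.S55.PT.H123.TopGlobC

/-!
# S55 / layer D, leaf D-T2b (global dévissage), part D: the generic theorem   (helper123)
-/

set_option autoImplicit false
set_option linter.unusedSectionVars false

noncomputable section

namespace Fermat.Agent.S55.PT.H123

open groupCohomology Fermat.Agent.S55.PT

variable {k : Type} [Field k] {G : Type} [Group G]
variable {ι : Type} [Fintype ι] [DecidableEq ι] {Gv : ι → Type} [∀ v, Group (Gv v)]
variable {L : LevelSys G} {Lv : ∀ v, LevelSys (Gv v)} {r : ∀ v, Gv v →* G}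
variable (hr : ∀ v, IsLevelCompatible (r v) L (Lv v))
variable (χ : G →* kˣ) (inv : ∀ v, (Lv v).H2 (ofChar (χ.comp (r v))) →ₗ[k] k)

/-- the augmentation of `Ind_U (ofChar χ)` as a `χ`-equivariant functional -/
def augChar (U : Subgroup G) : ↥(charHom χ (indRep U (ofChar χ))) :=
  ⟨indAug U (ofChar χ), fun g n => by
    have h := indAug_equivariant U (ofChar χ) g n
    rw [ofChar_ρ_apply] at h
    exact h⟩

/-- generic form of input A7 for the level `U` -/
def IndInj (U : Subgroup G) : Prop :=
  ∀ x : (v : ι) → (Lv v).H2 (Rep.res (r v) (indRep U (ofChar χ))),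
    (∑ v : ι, inv v (pushH2 (A := Rep.res (r v) (indRep U (ofChar χ)))
      (B := Rep.res (r v) (ofChar χ)) (indAug U (ofChar χ))
      ((indAug_equivariant U (ofChar χ)).res (r v)) (Lv v) (x v))) = 0 →
    x ∈ LinearMap.range (loc2 hr (indRep U (ofChar χ)))

variable {χ inv}

/-- `Θ(Ind_U (twTriv χ W))` is injective (in the form: kernel of `topGlobFun` is the range of
`loc2`). -/
theorem mem_range_loc2_ind (U : Subgroup G) (hInd : IndInj hr χ inv U)
    (W : Type) [AddCommGroup W] [Module k W] [FiniteDimensional k W]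
    (x : (v : ι) → (Lv v).H2 (Rep.res (r v) (indRep U (twTriv χ W))))
    (hx : topGlobFun χ inv (indRep U (twTriv χ W)) x = 0) :
    x ∈ LinearMap.range (loc2 hr (indRep U (twTriv χ W))) := by
  -- the coordinates of `x`
  have hcoord : ∀ i, pushLoc2 (r := r) (Lv := Lv) (A := indRep U (twTriv χ W))
      (B := indRep U (ofChar χ)) (coordMap U χ W i) (coordMap_equivariant U χ W i) x ∈
      LinearMap.range (loc2 hr (indRep U (ofChar χ))) := by
    intro i
    apply hInd
    have h1 := topGlobFun_push (inv := inv) (N := indRep U (twTriv χ W))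
      (N' := indRep U (ofChar χ)) (coordMap U χ W i) (coordMap_equivariant U χ W i) x
      (augChar χ U)
    rw [hx, LinearMap.zero_apply, topGlobFun_apply] at h1
    exact h1
  choose y hy using hcoord
  refine ⟨∑ i, pushH2 (A := indRep U (ofChar χ)) (B := indRep U (twTriv χ W))
    (inclMap U χ W i) (inclMap_equivariant U χ W i) L (y i), ?_⟩
  rw [map_sum]
  funext v
  rw [Finset.sum_apply]
  have h2 : ∀ i, loc2 hr (indRep U (twTriv χ W))
      (pushH2 (A := indRep U (ofChar χ)) (B := indRep U (twTriv χ W))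
        (inclMap U χ W i) (inclMap_equivariant U χ W i) L (y i)) v =
      pushH2 (A := Rep.res (r v) (indRep U (ofChar χ)))
        (B := Rep.res (r v) (indRep U (twTriv χ W)))
        (inclMap U χ W i) ((inclMap_equivariant U χ W i).res (r v)) (Lv v)
        (pushH2 (A := Rep.res (r v) (indRep U (twTriv χ W)))
          (B := Rep.res (r v) (indRep U (ofChar χ)))
          (coordMap U χ W i) ((coordMap_equivariant U χ W i).res (r v)) (Lv v) (x v)) := by
    intro i
    rw [loc2_pushH2, hy i]
    rfl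
  rw [Finset.sum_congr rfl fun i _ => h2 i]
  exact pushH2_sum_comp (Lv v) (A := Rep.res (r v) (indRep U (twTriv χ W)))
    (B := Rep.res (r v) (indRep U (ofChar χ)))
    (fun i => coordMap U χ W i) (fun i => inclMap U χ W i)
    (fun i => (coordMap_equivariant U χ W i).res (r v))
    (fun i => (inclMap_equivariant U χ W i).res (r v))
    (sum_inclMap_coordMap U χ W) (x v)

/-- `π_* ∘ i_* = 0` on `H²` -/
lemma pushH2_π_i {G' : Type} [Group G'] (L' : LevelSys G') {A B C : Rep.{0, 0, 0} k G'}
    (E : SES A B C) (z : L'.H2 A) :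
    pushH2 E.π E.hπ L' (pushH2 E.i E.hi L' z) = 0 := by
  obtain ⟨c, rfl⟩ := L'.H2π_surjective A z
  rw [pushH2_mk, pushH2_mk]
  have : pushZ2 E.π E.hπ L' (pushZ2 E.i E.hi L' c) = 0 := by
    apply Subtype.ext
    funext g
    simp only [coe_pushZ2, Function.comp_apply]
    exact E.π_i _
  rw [this, map_zero]

/-- The four lemma: injectivity of `Θ(N)` from surjectivity of `Θ(R)`, injectivity of `Θ(Q)` and
surjectivity of `∏_v H²(G_v, Q) → ∏_v H²(G_v, N)`, for a short exact sequence
`0 → R → Q → N → 0`. -/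
theorem mem_range_loc2_of_ses {R Q N : Rep.{0, 0, 0} k G} (E : SES R Q N)
    (hrec : IsRecip hr χ inv)
    (hsurjR : Function.Surjective (topT3 hr R hrec))
    (hinjQ : ∀ x : (v : ι) → (Lv v).H2 (Rep.res (r v) Q),
      topGlobFun χ inv Q x = 0 → x ∈ LinearMap.range (loc2 hr Q))
    (hπ : ∀ v, Function.Surjective (pushH2 (A := Rep.res (r v) Q) (B := Rep.res (r v) N)
      E.π (E.hπ.res (r v)) (Lv v)))
    (x : (v : ι) → (Lv v).H2 (Rep.res (r v) N)) (hx : topGlobFun χ inv N x = 0) :
    x ∈ LinearMap.range (loc2 hr N) := by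
  -- 1. lift `x` to `Q`
  choose x' hx' using fun v => hπ v (x v)
  have hxx' : pushLoc2 (r := r) (Lv := Lv) E.π E.hπ x' = x := by
    funext v
    rw [pushLoc2_apply]
    exact hx' v
  -- 2. `Θ(Q)(x')` kills the functionals vanishing on `R`
  have hkill : ∀ f : ↥(charHom χ Q), charHomPull χ E.i E.hi f = 0 →
      topGlobFun χ inv Q x' f = 0 := by
    intro f hf
    obtain ⟨f', rfl⟩ := ker_charHomPull_le χ E (LinearMap.mem_ker.2 hf)
    rw [← topGlobFun_push, hxx', hx, LinearMap.zero_apply]
  -- 3. factor through `charHom χ R`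
  obtain ⟨δ, hδ⟩ := exists_factor_sub (charHom χ Q) (charHom χ R) (charHomPull χ E.i E.hi)
    (topGlobFun χ inv Q x') hkill
  -- 4. `Θ(R)` is surjective
  obtain ⟨d', hd'⟩ := hsurjR δ
  obtain ⟨d, rfl⟩ := T3π_surjective hr R d'
  rw [topT3_mk] at hd'
  -- 5. correct `x'`
  have h5 : topGlobFun χ inv Q (x' - pushLoc2 (r := r) (Lv := Lv) E.i E.hi d) = 0 := by
    apply LinearMap.ext
    intro f
    rw [map_sub, LinearMap.sub_apply, topGlobFun_push, hd', hδ, sub_self, LinearMap.zero_apply]
  -- 6. injectivity for `Q`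
  obtain ⟨y, hy⟩ := hinjQ _ h5
  -- 7. conclusion
  refine ⟨pushH2 E.π E.hπ L y, ?_⟩
  rw [loc2_pushH2, hy, map_sub, hxx']
  have h7 : pushLoc2 (r := r) (Lv := Lv) E.π E.hπ (pushLoc2 (r := r) (Lv := Lv) E.i E.hi d) = 0 := by
    funext v
    rw [pushLoc2_apply, pushLoc2_apply]
    exact pushH2_π_i (Lv v) (E.res (r v)) (d v)
  rw [h7, sub_zero]

end Fermat.Agent.S55.PT.H123

end
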