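import Fermat.Agent.S55.PT.H123.TopGlobD

/-!
# S55 / layer D, leaf D-T2b (global dévissage), part E: generic main theorem   (helper123)

`topT3_bijective_of` : in the generic setting, `Θ(N) : T³(N) → Dual (charHom χ N)` is bijective
for every finite-dimensional uniformly smooth `N`, given

* normal levels are cofinal and of finite index, `χ` is trivial on some level,
* ONE local top pairing is surjective on all finite-dimensional smooth modules,
* A7 (`IndInj`) for all normal levels on which `χ` is trivial,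
* local right exactness of `H²`.
-/

set_option autoImplicit false
set_option linter.unusedSectionVars false

noncomputable section

namespace Fermat.Agent.S55.PT.H123

open groupCohomology Fermat.Agent.S55.PT

variable {k : Type} [Field k] {G : Type} [Group G]

/-! ### smoothness and finiteness of induced modules -/

section IndSmooth

variable (U : Subgroup G) (χ : G →* kˣ)

lemma smul_mk_eq_of_mem_normal [U.Normal] {s : G} (hs : s ∈ U) (x : G ⧸ U) : s • x = x := by
  induction x using QuotientGroup.induction_on with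
  | H g =>
    show ((s * g : G) : G ⧸ U) = (g : G ⧸ U)
    rw [QuotientGroup.eq]
    have h1 : (s * g)⁻¹ * g = g⁻¹ * s⁻¹ * g := by group
    rw [h1]
    have := (inferInstance : U.Normal).conj_mem s⁻¹ (U.inv_mem hs) g⁻¹
    simpa using this

lemma indRep_twTriv_ρ_eq [U.Normal] (hχ : ∀ u ∈ U, χ u = 1) (W : Type) [AddCommGroup W]
    [Module k W] {s : G} (hs : s ∈ U) (a : indRep U (twTriv χ W)) :
    (indRep U (twTriv χ W)).ρ s a = a := by
  have h : indAct U (twTriv χ W) s = LinearMap.id := by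
    apply Finsupp.lhom_ext
    intro x w
    rw [indAct_single, smul_mk_eq_of_mem_normal U hs x, twTriv_ρ_apply, hχ s hs, Units.val_one,
      one_smul, LinearMap.id_apply]
  exact LinearMap.congr_fun h a

lemma indRep_twTriv_isUSmooth (L : LevelSys G) [U.Normal] (hU : U ∈ L.levels)
    (hχ : ∀ u ∈ U, χ u = 1) (W : Type) [AddCommGroup W] [Module k W] :
    L.IsUSmooth (indRep U (twTriv χ W)) :=
  ⟨U, hU, fun _ hs a => indRep_twTriv_ρ_eq U χ hχ W hs a⟩

lemma kerRep_isUSmooth (L : LevelSys G) {A B : Rep.{0, 0, 0} k G} (φ : A →ₗ[k] B)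
    (hφ : IsEquivariant φ) (hA : L.IsUSmooth A) : L.IsUSmooth (kerRep φ hφ) := by
  obtain ⟨V, hV, h⟩ := hA
  refine ⟨V, hV, fun s hs a => ?_⟩
  apply Subtype.ext
  exact h s hs a.1

end IndSmooth

section Main

variable {ι : Type} [Fintype ι] [DecidableEq ι] {Gv : ι → Type} [∀ v, Group (Gv v)]
variable {L : LevelSys G} {Lv : ∀ v, LevelSys (Gv v)} {r : ∀ v, Gv v →* G}
variable (hr : ∀ v, IsLevelCompatible (r v) L (Lv v))
variable {χ : G →* kˣ} {inv : ∀ v, (Lv v).H2 (ofChar (χ.comp (r v))) →ₗ[k] k}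

/-- **Global dévissage, generic form.** -/
theorem topT3_bijective_of (hN : L.NormalCofinal) (hFI : L.FiniteIndex)
    (hrec : IsRecip hr χ inv)
    (hχ : ∃ U ∈ L.levels, ∀ u ∈ U, χ u = 1)
    (v₀ : ι)
    (hloc : ∀ N' : Rep.{0, 0, 0} k (Gv v₀), FiniteDimensional k N' → (Lv v₀).IsUSmooth N' →
      Function.Surjective (topPair (Lv v₀) (χ.comp (r v₀)) (inv v₀) N'))
    (hInd : ∀ U ∈ L.levels, U.Normal → (∀ s ∈ U, χ s = 1) → IndInj hr χ inv U)
    (hS2l : ∀ (v : ι) (P N' : Rep.{0, 0, 0} k (Gv v)) (φ : P →ₗ[k] N') (hφ : IsEquivariant φ),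
      FiniteDimensional k P → (Lv v).IsUSmooth P → (Lv v).IsUSmooth N' →
      Function.Surjective φ → Function.Surjective (pushH2 φ hφ (Lv v)))
    (N : Rep.{0, 0, 0} k G) (hfd : FiniteDimensional k N) (hsm : L.IsUSmooth N) :
    Function.Bijective (topT3 hr N hrec) := by
  -- a normal level `U` acting trivially on `N` and `χ`
  obtain ⟨U₁, hU₁, hNU₁⟩ := hsm
  obtain ⟨U₂, hU₂, hχU₂⟩ := hχ
  obtain ⟨U₃, hU₃, hle₃⟩ := L.directed U₁ hU₁ U₂ hU₂
  obtain ⟨U, hU, hUle, hUn⟩ := hN U₃ hU₃
  haveI : U.Normal := hUn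
  have hχU : ∀ u ∈ U, χ u = 1 := fun u hu => hχU₂ u (hle₃ (hUle hu)).2
  have hNU : ∀ u ∈ U, N.ρ u = 1 := fun u hu =>
    LinearMap.ext fun a => hNU₁ u (hle₃ (hUle hu)).1 a
  have hsmN : L.IsUSmooth N := ⟨U₁, hU₁, hNU₁⟩
  haveI : U.FiniteIndex := hFI U hU
  haveI : Finite (G ⧸ U) := Subgroup.finite_quotient_of_finiteIndex
  -- the presentation
  let E := twSES χ U N hχU hNU
  have hfdQ : FiniteDimensional k (indRep U (twTriv χ N)) :=
    (inferInstance : FiniteDimensional k ((G ⧸ U) →₀ N))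
  have hsmQ : L.IsUSmooth (indRep U (twTriv χ N)) := indRep_twTriv_isUSmooth U χ L hU hχU N
  have hfdR : FiniteDimensional k (kerRep (A := indRep U (twTriv χ N)) (B := N) (augTw χ U N)
      (augTw_equivariant χ U N hχU hNU)) :=
    (inferInstance : FiniteDimensional k ↥(LinearMap.ker (augTw χ U N)))
  have hsmR : L.IsUSmooth (kerRep (A := indRep U (twTriv χ N)) (B := N) (augTw χ U N)
      (augTw_equivariant χ U N hχU hNU)) :=
    kerRep_isUSmooth L _ _ hsmQ
  constructor
  · -- injectivity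
    rw [injective_iff_map_eq_zero]
    intro y hy
    obtain ⟨x, rfl⟩ := T3π_surjective hr N y
    rw [topT3_mk] at hy
    rw [T3π_eq_zero_iff]
    refine mem_range_loc2_of_ses hr E hrec ?_ ?_ ?_ x hy
    · exact topT3_surjective_of hr hrec _ v₀ (hloc _ hfdR (hsmR.res (hr v₀)))
    · exact mem_range_loc2_ind hr U (hInd U hU hUn hχU) N
    · intro v
      exact hS2l v _ _ _ _ hfdQ (hsmQ.res (hr v)) (hsmN.res (hr v))
        (augTw_surjective χ U N hχU hNU)
  · -- surjectivity
    exact topT3_surjective_of hr hrec N v₀ (hloc _ hfd (hsmN.res (hr v₀)))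

end Main

end Fermat.Agent.S55.PT.H123

end
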